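/-
Program V (S27), half A: Spec-level assembly.  From the interface statements of
`V/Frob/Spec.lean` at every level `(σ ^ m, Q ^ m)` to the cardinality of the `l`-power torsion
of `Pic0`, via `v27zb_main` (zeta base change) and `v27a_card_torsion` (GlueA).
Owner: helper17.
-/
import Mathlib
import Fermat.Agent.V.Frob.Spec
import Fermat.Agent.V.ZetaBC
import Fermat.Agent.V.GlueA

set_option autoImplicit false

noncomputable section

namespace Fermat.Agent.V

open AlgebraicCurve

variable {k F : Type*} [Field k] [Field F] [Algebra k F]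

theorem v27A_of_specs (l : ℕ) [Fact l.Prime] (σ : SemilinearAut k F) (Q g : ℕ)
    (hlQ : ¬ l ∣ Q)
    (hzeta : ∀ m : ℕ, 0 < m → V27SpecZeta (σ ^ m) (Q ^ m) g)
    (hrec : ∀ m : ℕ, 0 < m → V27SpecRec (σ ^ m))
    (hnorm : ∀ m : ℕ, 0 < m → V27SpecNorm (σ ^ m))
    (hfix : V27SpecFix σ) (n : ℕ) :
    Nat.card (Pic0.torsion k F (l ^ n)) = l ^ (2 * g * n) := by
  classical
  -- the polynomials at every level
  let P : ℕ → Polynomial ℤ := fun m =>
    if h : 0 < m then (hzeta m h).2.choose else 0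
  have hPspec : ∀ m (hm : 0 < m), (P m).natDegree = 2 * g ∧ (P m).coeff 0 = 1 ∧
      (P m).leadingCoeff = ((Q ^ m : ℕ) : ℤ) ^ g ∧
      (P m).eval 1 = (Nat.card {x : Pic0 k F // (σ ^ m) • x = x} : ℤ) ∧
      ((1 - PowerSeries.X) * (1 - ((Q ^ m : ℕ) : ℤ) • PowerSeries.X) *
          PowerSeries.mk (fun d => (v27ADeg (σ ^ m) d : ℤ)) : PowerSeries ℤ)
        = ((P m : Polynomial ℤ) : PowerSeries ℤ) := by
    intro m hm
    have := (hzeta m hm).2.choose_spec
    simpa only [P, dif_pos hm] using this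
  obtain ⟨M, hMdet, hM⟩ := v27zb_main Q g (fun r => v27NFix σ r)
    (fun m d => v27ADeg (σ ^ m) d) P
    (fun m hm => (hrec m hm).1)
    (fun m hm d => by
      have h := (hrec m hm).2 d
      simpa only [v27NFix_pow] using h)
    (fun m hm => by
      have h := (hPspec m hm).2.2.2.2
      push_cast at h
      exact h)
    (hPspec 1 Nat.one_pos).1 (hPspec 1 Nat.one_pos).2.1
    (by
      have h := (hPspec 1 Nat.one_pos).2.2.1
      simpa using h)
  -- GlueA
  have hlp : l.Prime := Fact.out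
  have hdet : ¬ (l : ℤ) ∣ M.det := by
    rw [hMdet]
    intro h
    have h1 : (l : ℤ) ∣ (Q : ℤ) := (Nat.prime_iff_prime_int.mp hlp).dvd_of_dvd_pow h
    exact hlQ (Int.natCast_dvd_natCast.mp h1)
  have hiter : ∀ (m : ℕ) (x : Pic0 k F), (⇑(v27Phi σ))^[m] x = (σ ^ m) • x :=
    v27Phi_iterate σ
  have hEq : ∀ m : ℕ, {x : Pic0 k F // (⇑(v27Phi σ))^[m] x = x} ≃
      {x : Pic0 k F // (σ ^ m) • x = x} := fun m =>
    Equiv.subtypeEquivRight (fun x => by rw [hiter])
  have key := v27a_card_torsion (P := Pic0 k F) l (v27Phi σ) M hdet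
    (fun x => by
      obtain ⟨m, hm, hx⟩ := hfix x
      exact ⟨m, hm, (hiter m x).trans hx⟩)
    (fun m hm => by
      haveI := (hzeta m hm).1
      exact Finite.of_equiv _ (hEq m).symm)
    (fun m hm => by
      rw [Nat.card_congr (hEq m), ← (hPspec m hm).2.2.2.1, hM m hm]
      have h1 : (0 : ℤ) ≤ v27lte_h M m := by
        rw [← hM m hm, (hPspec m hm).2.2.2.1]
        exact Int.natCast_nonneg _
      exact (abs_of_nonneg h1).symm)
    (fun m r hm hr y hy => by
      have hy' : (σ ^ m) • y = y := (hiter m y).symm.trans hy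
      obtain ⟨x, hx, hsum⟩ := hnorm m hm r hr y hy'
      refine ⟨x, ?_, ?_⟩
      · rw [hiter, pow_mul]
        exact hx
      · rw [← hsum]
        refine Finset.sum_congr rfl fun i _ => ?_
        rw [hiter, pow_mul])
    n
  rw [Fintype.card_fin] at key
  rw [← key]
  refine Nat.card_congr (Equiv.subtypeEquivRight fun x => ?_)
  rw [Pic0.mem_torsion, natCast_zsmul]

end Fermat.Agent.V
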