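import Mathlib
import Fermat.Agent.V.A.Assemble
import Fermat.Agent.V.Frob.ConstructSL
import Fermat.Agent.V.Frob.Orbit
import Fermat.Agent.V.Frob.HRecCurve
import Fermat.Agent.V.RR.SepGenPlace

/-!
# Program V (S27), half A, leaf C8 : the final assembly, with C5 (ZETA-INST) and C7 (NORM-INST) as
hypotheses (prefix `v27A`)

`k` algebraically closed, algebraic over `𝔽_p`; `F / k` a Prelude curve.  From

* `hC5` : for every Frobenius structure `(σ, Q)` with a `σ`-fixed place, `V27SpecZeta σ Q g`,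
* `hC7` : for every Frobenius structure `(σ, Q)` with a `σ`-fixed place, `V27SpecNorm σ`,

we get `|Pic0(F)[l ^ n]| = l ^ (2 g n)` for `l ≠ p` (`v27A_main_of`).  Inside : the construction of
a Frobenius structure (helper6), a fixed place after raising the level (helper7's (Oa)), the
recursion C6 (helper25), `V27SpecFix` (helper7's (Oc)) and helper17's `v27A_of_specs`.
-/

set_option autoImplicit false
set_option linter.unusedSectionVars false
set_option linter.unusedVariables false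
set_option linter.style.haveILetI false

namespace Fermat.Agent.V

open AlgebraicCurve

variable {k F : Type*} [Field k] [Field F] [Algebra k F]

/-- a fixed place stays fixed at every level -/
theorem v27A_pow_smul_fixed (σ : SemilinearAut k F) {v : Place k F} (hv : σ • v = v) (m : ℕ) :
    (σ ^ m) • v = v := by
  induction m with
  | zero => simp
  | succ m ih => rw [pow_succ, mul_smul, hv, ih]

/-- C1 in the shape of the Spec -/
theorem v27A_specOrbit [IsAlgClosed k] [IsCurveOver k F] {p : ℕ} [Fact p.Prime]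
    {σ : SemilinearAut k F} {Q : ℕ} (hF : V27Frob p σ Q) : V27SpecOrbit σ :=
  ⟨fun v => v27fo_place_orbit_finite σ hF.loc v,
    fun n hn => v27fo_fixed_places_finite σ Q hF.one_lt hF.base hF.loc n hn⟩

/-- Or3 in the shape of the Spec -/
theorem v27A_specFix [IsAlgClosed k] [IsCurveOver k F] {p : ℕ}
    {σ : SemilinearAut k F} {Q : ℕ} (hF : V27Frob p σ Q) : V27SpecFix σ :=
  fun x => v27fo_pic0_orbit_finite σ hF.loc x

/-- C6 in the shape of the Spec -/
theorem v27A_specRec [IsAlgClosed k] [IsCurveOver k F] {σ : SemilinearAut k F}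
    (hO : V27SpecOrbit σ) : V27SpecRec σ := by
  have hdeg : ∀ v : Place k F, v.deg = 1 := IsCurveOver.deg_eq_one_of_isAlgClosed
  have hOr2 : ∀ m : ℕ, 0 < m → Finite {v : Place k F // (σ ^ m) • v = v} :=
    fun m hm => (hO.2 m hm).to_subtype
  exact ⟨v27hcA_zero σ hdeg hO.1 hOr2, fun d => v27hc_rec σ hdeg hO.1 hOr2 d⟩

/-- **C8 with C5 and C7 as hypotheses** -/
theorem v27A_main_of (p : ℕ) [Fact p.Prime] [IsAlgClosed k] [CharP k p] [Algebra (ZMod p) k]
    [Algebra.IsAlgebraic (ZMod p) k] [IsCurveOver k F] [Algebra.EssFiniteType k F] (g : ℕ)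
    (hC5 : ∀ (σ : SemilinearAut k F) (Q : ℕ), V27Frob p σ Q →
      (∃ v₀ : Place k F, σ • v₀ = v₀) → V27SpecZeta σ Q g)
    (hC7 : ∀ (σ : SemilinearAut k F) (Q : ℕ), V27Frob p σ Q →
      (∃ v₀ : Place k F, σ • v₀ = v₀) → V27SpecNorm σ)
    (l : ℕ) [Fact l.Prime] (hl : l ≠ p) (n : ℕ) :
    Nat.card (Pic0.torsion k F (l ^ n)) = l ^ (2 * g * n) := by
  have hp : p.Prime := Fact.out
  have hlp : l.Prime := Fact.out
  -- a Frobenius structure
  obtain ⟨r, σ₀, hr, hbase₀, hloc₀⟩ :=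
    v27fc_exists_semilinearAut (F := F) (v27fc_alg_of_isAlgebraic (p := p) (k := k))
  have hF₀ : V27Frob p σ₀ (p ^ r) := ⟨⟨r, hr, rfl⟩, hbase₀, hloc₀⟩
  -- a fixed place after raising the level
  haveI : PerfectField k := IsAlgClosed.perfectField k
  obtain ⟨v₀⟩ := Fermat.Agent.V.RR.v27x_nonempty_place (K := k) (F := F)
  obtain ⟨m₀, hm₀, hv₀⟩ := v27fo_place_orbit_finite σ₀ hloc₀ v₀
  have hF : V27Frob p (σ₀ ^ m₀) ((p ^ r) ^ m₀) := hF₀.pow hm₀
  have hlQ : ¬ l ∣ (p ^ r) ^ m₀ := by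
    intro h
    have h1 : l ∣ p := hlp.dvd_of_dvd_pow (hlp.dvd_of_dvd_pow h)
    exact hl ((Nat.prime_dvd_prime_iff_eq hlp hp).1 h1)
  have hfixed : ∀ m : ℕ, ∃ v : Place k F, ((σ₀ ^ m₀) ^ m) • v = v :=
    fun m => ⟨v₀, v27A_pow_smul_fixed (σ₀ ^ m₀) hv₀ m⟩
  exact v27A_of_specs l (σ₀ ^ m₀) ((p ^ r) ^ m₀) g hlQ
    (fun m hm => hC5 _ _ (hF.pow hm) (hfixed m))
    (fun m hm => v27A_specRec (v27A_specOrbit (hF.pow hm)))
    (fun m hm => hC7 _ _ (hF.pow hm) (hfixed m))
    (v27A_specFix hF) n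

end Fermat.Agent.V
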