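import Mathlib
import Fermat.Agent.V.A.Core
import Fermat.Agent.V.RR.Closed
import Fermat.Agent.V.Frob.OfRR
import Fermat.Agent.V.Frob.ZetaSpec
import Fermat.Agent.V.NormInst.Main

/-!
# Program V (S27), half A : THE FINITE-FIELD HALF (prefix `v27A`)

`v27A_main` : for `k` algebraically closed and algebraic over `𝔽_p`, `F / k` a Prelude curve
(`IsCurveOver k F`, `Algebra.EssFiniteType k F`), `l ≠ p` prime :
`|Pic0(F)[l ^ n]| = l ^ (2 * genusFF k F * n)`.

Assembly of the leaves : Riemann–Roch (`v27x_rr`, helper9 + helper28), the Frobenius structure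
(helper6), orbits C1 (helper7), C2 COUNT / C3 PICDESC / C4 ELL (helper23), C5 ZETA-INST + C6 HREC
(helper25), C7 NORM-INST (helper16), zeta base change + LTE (helper19), the Spec-level assembly
(helper17) and `V/Group`, `V/GlueA`, `V/A/Core` (helper2).
-/

set_option autoImplicit false
set_option linter.unusedSectionVars false
set_option linter.unusedVariables false
set_option linter.style.haveILetI false

namespace Fermat.Agent.V

open AlgebraicCurve Fermat.Agent.V.RR

variable {k F : Type*} [Field k] [Field F] [Algebra k F]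

/-- C2 COUNT in the shape of the Spec -/
theorem v27A_specCount [IsAlgClosed k] (p : ℕ) [Fact p.Prime] [CharP k p] {g : ℕ}
    (hRR : V27RR k F g) {σ : SemilinearAut k F} {Q : ℕ} (hF : V27Frob p σ Q) :
    V27SpecCount σ Q := by
  obtain ⟨r, hr, hQ⟩ := hF.hQ
  intro D hD
  have h1 := v27f_count_rr p σ hRR hQ hr hF.base hF.loc D hD
  unfold v27NCls
  rw [← h1]
  congr 1
  exact Nat.card_congr (Equiv.subtypeEquivRight fun E => by rw [v27zs_mk_eq_iff'])

/-- C3 PICDESC in the shape of the Spec (needs a `σ`-fixed place for (b)) -/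
theorem v27A_specPicDesc [IsAlgClosed k] [IsCurveOver k F] (p : ℕ) [Fact p.Prime] [CharP k p]
    {g : ℕ} (hRR : V27RR k F g) {σ : SemilinearAut k F} {Q : ℕ} (hF : V27Frob p σ Q)
    (hv : ∃ v₀ : Place k F, σ • v₀ = v₀) : V27SpecPicDesc σ := by
  obtain ⟨r, hr, hQ⟩ := hF.hQ
  obtain ⟨v₀, hv₀⟩ := hv
  refine ⟨fun D hD hprin => v27f_picdesc_a_rr p σ hRR hQ hr hF.base hD hprin, fun c hc => ?_⟩
  obtain ⟨D, rfl⟩ := v27PicMk_surjective c
  have hD : σ • D - D ∈ Divisor.principal (K := k) (F := F) := by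
    rw [v27PicMap_mk] at hc
    exact v27zs_mk_eq_iff'.1 hc
  have hB : ∃ B : Divisor k F, σ • B = B ∧ 0 < Divisor.degree B := by
    refine ⟨Finsupp.single v₀ 1, ?_, ?_⟩
    · rw [SemilinearAut.smul_single, hv₀]
    · rw [Divisor.degree_single, IsCurveOver.deg_eq_one_of_isAlgClosed v₀]
      norm_num
  obtain ⟨D', hD', hD'inv⟩ := v27f_picdesc_b_rr p σ hRR hQ hr hF.base hF.loc hB hD
    (v27fo_divisor_orbit_finite σ hF.loc D)
  exact ⟨D', hD'inv, v27zs_mk_eq_iff'.2 hD'⟩

/-- **THE FINITE-FIELD HALF OF S27** -/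
theorem v27A_main (p : ℕ) [Fact p.Prime] [IsAlgClosed k] [CharP k p] [Algebra (ZMod p) k]
    [Algebra.IsAlgebraic (ZMod p) k] [IsCurveOver k F] [Algebra.EssFiniteType k F]
    (l : ℕ) [Fact l.Prime] (hl : l ≠ p) (n : ℕ) :
    Nat.card (Pic0.torsion k F (l ^ n)) = l ^ (2 * genusFF k F * n) := by
  have hRR : V27RR k F (genusFF k F) := v27x_rr
  have hC5 : ∀ (σ : SemilinearAut k F) (Q : ℕ), V27Frob p σ Q →
      (∃ v₀ : Place k F, σ • v₀ = v₀) → V27SpecZeta σ Q (genusFF k F) :=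
    fun σ Q hF hv => v27zs_specZeta_frob hF hv hRR (v27A_specOrbit hF)
      (v27A_specCount p hRR hF) (v27A_specPicDesc p hRR hF hv)
  refine v27A_main_of p (genusFF k F) hC5 (fun σ Q hF hv => ?_) l hl n
  obtain ⟨v₀, hv₀⟩ := hv
  exact v27ni_specNorm σ Q hF.one_lt ⟨v₀⟩ (v27A_specOrbit hF) (v27A_specCount p hRR hF)
    (v27A_specPicDesc p hRR hF ⟨v₀, hv₀⟩) (hC5 σ Q hF ⟨v₀, hv₀⟩).1 (genusFF k F)
    (fun D hD => (hRR.finrank_of_lt hD).1)

end Fermat.Agent.V
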