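import Mathlib
import Fermat.Agent.V.A.Main

/-!
# Program V, half A, two corollaries (prefix `v27At_`)

Owner: helper2.  For `k` algebraically closed and algebraic over `𝔽_p`, `F / k` a Prelude curve:

* `v27At_isTorsion` : every class of `Pic0 k F` is torsion (it is fixed by a power of a Frobenius
  structure, and the fixed points of such a power form a finite group);
* `v27At_divisible` : `Pic0 k F` is `l`-divisible for every prime `l ≠ p` (counting
  `|Pic0[l^(a+1)]| / |Pic0[l]| = |Pic0[l^a]|`, `v27A_main`).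

Both are stated so that they can be cited by a first-order transfer to characteristic `0`
("`∀ x ∃ y, l • y = x`").
-/

set_option autoImplicit false
set_option linter.unusedSectionVars false
set_option linter.unusedVariables false
set_option linter.style.haveILetI false

namespace Fermat.Agent.V

open AlgebraicCurve Fermat.Agent.V.RR

/-! ### Group theory -/

section Group

variable {G : Type*} [AddCommGroup G]

/-- an element lying in a finite set stable under `ℕ`-multiples of it is torsion -/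
theorem v27At_torsion_of_finite {S : Set G} (hS : S.Finite) (x : G) (hx : ∀ j : ℕ, j • x ∈ S) :
    ∃ n : ℕ, 0 < n ∧ n • x = 0 := by
  haveI : Finite S := hS.to_subtype
  obtain ⟨i, j, hij, h⟩ := Finite.exists_ne_map_eq_of_infinite (fun j : ℕ => (⟨j • x, hx j⟩ : S))
  have h' : i • x = j • x := congrArg Subtype.val h
  rcases lt_or_gt_of_ne hij with hlt | hlt
  · refine ⟨j - i, by omega, ?_⟩
    rw [sub_nsmul _ hlt.le, h']
    simp
  · refine ⟨i - j, by omega, ?_⟩
    rw [sub_nsmul _ hlt.le, h']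
    simp

/-- the counting argument: if `|G[l^n]| = l^(d n)` for all `n`, every element killed by `l^a` is
divisible by `l`. -/
theorem v27At_div_of_card (l : ℕ) [hl : Fact l.Prime] (d : ℕ) (T : ℕ → AddSubgroup G)
    (hT : ∀ (n : ℕ) (x : G), x ∈ T n ↔ (l ^ n) • x = 0)
    (hcard : ∀ n : ℕ, Nat.card (T n) = l ^ (d * n)) (a : ℕ) (x : G) (hx : (l ^ a) • x = 0) :
    ∃ y : G, l • y = x := by
  have hlpos : 0 < l := hl.out.pos
  have hfin : ∀ n, Finite (T n) := fun n =>
    Nat.finite_of_card_ne_zero (by rw [hcard]; exact (pow_pos hlpos _).ne')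
  haveI := hfin a
  haveI := hfin (a + 1)
  -- multiplication by `l` from `T (a+1)` to `T a`
  let f : T (a + 1) →+ T a :=
    { toFun := fun y => ⟨l • (y : G), by
        rw [hT, ← mul_nsmul', ← pow_succ]
        exact (hT _ _).1 y.2⟩
      map_zero' := by ext; simp
      map_add' := fun y z => by ext; simp [nsmul_add] }
  -- its kernel is `T 1`
  have hker : Nat.card f.ker = l ^ d := by
    have e : f.ker ≃ T 1 :=
      { toFun := fun y => ⟨(y : T (a + 1)), by
          rw [hT, pow_one]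
          have := y.2
          rw [AddMonoidHom.mem_ker] at this
          exact congrArg Subtype.val this⟩
        invFun := fun z => ⟨⟨(z : G), by
          rw [hT, pow_succ, mul_nsmul']
          have := (hT 1 _).1 z.2
          rw [pow_one] at this
          rw [this, nsmul_zero]⟩, by
          rw [AddMonoidHom.mem_ker]
          ext
          have := (hT 1 _).1 z.2
          rw [pow_one] at this
          exact this⟩
        left_inv := fun y => rfl
        right_inv := fun z => rfl }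
    rw [Nat.card_congr e, hcard, mul_one]
  have hsurj : Function.Surjective f := by
    apply AddMonoidHom.surjective_of_card_ker_le_div
    rw [hker, hcard, hcard, Nat.mul_succ, pow_add, Nat.mul_div_cancel_left _ (pow_pos hlpos _)]
  obtain ⟨y, hy⟩ := hsurj ⟨x, (hT a x).2 hx⟩
  exact ⟨(y : G), congrArg Subtype.val hy⟩

/-- a torsion group with `|G[l^n]| = l^(d n)` for all `n` is `l`-divisible. -/
theorem v27At_divisible_of_card (l : ℕ) [hl : Fact l.Prime] (d : ℕ) (T : ℕ → AddSubgroup G)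
    (hT : ∀ (n : ℕ) (x : G), x ∈ T n ↔ (l ^ n) • x = 0)
    (hcard : ∀ n : ℕ, Nat.card (T n) = l ^ (d * n)) (x : G)
    (hx : ∃ n : ℕ, 0 < n ∧ n • x = 0) : ∃ y : G, l • y = x := by
  obtain ⟨n, hn, hnx⟩ := hx
  obtain ⟨a, u, hu, rfl⟩ := Nat.exists_eq_pow_mul_and_not_dvd hn.ne' l hl.out.ne_one
  -- Bezout for `l ^ a` and `u`
  have hcop : IsCoprime ((l ^ a : ℕ) : ℤ) (u : ℤ) := by
    rw [Int.isCoprime_iff_gcd_eq_one, Int.gcd_natCast_natCast]
    exact Nat.Coprime.pow_left a ((Nat.Prime.coprime_iff_not_dvd hl.out).2 hu)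
  obtain ⟨s, t, hst⟩ := hcop
  -- `x = x₂ + x₁`, `x₂ = (s l^a) x` killed by `u`, `x₁ = (t u) x` killed by `l^a`
  have hx12 : x = (s * ((l ^ a : ℕ) : ℤ)) • x + (t * (u : ℤ)) • x := by
    rw [← add_zsmul, hst, one_zsmul]
  -- `x₁` is divisible by the counting argument
  have h1 : (l ^ a) • ((t * (u : ℤ)) • x) = 0 := by
    rw [← natCast_zsmul, ← mul_zsmul]
    have : ((l ^ a : ℕ) : ℤ) * (t * (u : ℤ)) = t * ((l ^ a * u : ℕ) : ℤ) := by push_cast; ring
    rw [this, mul_zsmul, natCast_zsmul, hnx, zsmul_zero]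
  obtain ⟨y1, hy1⟩ := v27At_div_of_card l d T hT hcard a _ h1
  -- `x₂` is divisible because `l` is invertible modulo `u`
  have h2 : u • ((s * ((l ^ a : ℕ) : ℤ)) • x) = 0 := by
    rw [← natCast_zsmul, ← mul_zsmul]
    have : (u : ℤ) * (s * ((l ^ a : ℕ) : ℤ)) = s * ((l ^ a * u : ℕ) : ℤ) := by push_cast; ring
    rw [this, mul_zsmul, natCast_zsmul, hnx, zsmul_zero]
  have hcop2 : IsCoprime (l : ℤ) (u : ℤ) := by
    rw [Int.isCoprime_iff_gcd_eq_one, Int.gcd_natCast_natCast]
    exact (Nat.Prime.coprime_iff_not_dvd hl.out).2 hu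
  obtain ⟨c, e, hce⟩ := hcop2
  set x2 := (s * ((l ^ a : ℕ) : ℤ)) • x with hx2
  have hy2 : l • (c • x2) = x2 := by
    have h3 : (c * (l : ℤ)) • x2 + (e * (u : ℤ)) • x2 = x2 := by
      rw [← add_zsmul, hce, one_zsmul]
    have h4 : (e * (u : ℤ)) • x2 = 0 := by
      rw [mul_zsmul, natCast_zsmul, h2, zsmul_zero]
    rw [h4, add_zero] at h3
    rw [← natCast_zsmul, ← mul_zsmul, mul_comm]
    exact h3
  refine ⟨c • x2 + y1, ?_⟩
  rw [nsmul_add, hy2, hy1]
  exact hx12.symm

end Group

/-! ### The curve -/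

variable {k F : Type*} [Field k] [Field F] [Algebra k F]

/-- **Every class of `Pic0` of a curve over `𝔽_p`-bar is torsion.** -/
theorem v27At_isTorsion (p : ℕ) [Fact p.Prime] [IsAlgClosed k] [CharP k p] [Algebra (ZMod p) k]
    [Algebra.IsAlgebraic (ZMod p) k] [IsCurveOver k F] [Algebra.EssFiniteType k F]
    (x : Pic0 k F) : ∃ n : ℕ, 0 < n ∧ n • x = 0 := by
  have hp : p.Prime := Fact.out
  have hRR : V27RR k F (genusFF k F) := v27x_rr
  -- a Frobenius structure with a fixed place (as in `v27A_main_of`)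
  obtain ⟨r, σ₀, hr, hbase₀, hloc₀⟩ :=
    v27fc_exists_semilinearAut (F := F) (v27fc_alg_of_isAlgebraic (p := p) (k := k))
  have hF₀ : V27Frob p σ₀ (p ^ r) := ⟨⟨r, hr, rfl⟩, hbase₀, hloc₀⟩
  haveI : PerfectField k := IsAlgClosed.perfectField k
  obtain ⟨v₀⟩ := Fermat.Agent.V.RR.v27x_nonempty_place (K := k) (F := F)
  obtain ⟨m₀, hm₀, hv₀⟩ := v27fo_place_orbit_finite σ₀ hloc₀ v₀
  have hF : V27Frob p (σ₀ ^ m₀) ((p ^ r) ^ m₀) := hF₀.pow hm₀
  -- `x` is fixed by a power of it
  obtain ⟨m, hm, hx⟩ := v27A_specFix hF x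
  have hFm : V27Frob p ((σ₀ ^ m₀) ^ m) (((p ^ r) ^ m₀) ^ m) := hF.pow hm
  have hvm : ∃ v : Place k F, ((σ₀ ^ m₀) ^ m) • v = v :=
    ⟨v₀, v27A_pow_smul_fixed (σ₀ ^ m₀) hv₀ m⟩
  -- the fixed points of that power are finite
  have hfin : Finite {y : Pic0 k F // ((σ₀ ^ m₀) ^ m) • y = y} :=
    (v27zs_specZeta_frob hFm hvm hRR (v27A_specOrbit hFm)
      (v27A_specCount p hRR hFm) (v27A_specPicDesc p hRR hFm hvm)).1
  have hS : {y : Pic0 k F | ((σ₀ ^ m₀) ^ m) • y = y}.Finite := Set.finite_coe_iff.1 hfin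
  refine v27At_torsion_of_finite hS x (fun j => ?_)
  show ((σ₀ ^ m₀) ^ m) • (j • x) = j • x
  have := map_nsmul (DistribMulAction.toAddMonoidHom (Pic0 k F) ((σ₀ ^ m₀) ^ m)) j x
  simp only [DistribMulAction.toAddMonoidHom_apply] at this
  rw [this, hx]

/-- **`Pic0` of a curve over `𝔽_p`-bar is `l`-divisible for every prime `l ≠ p`.** -/
theorem v27At_divisible (p : ℕ) [Fact p.Prime] [IsAlgClosed k] [CharP k p] [Algebra (ZMod p) k]
    [Algebra.IsAlgebraic (ZMod p) k] [IsCurveOver k F] [Algebra.EssFiniteType k F]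
    (l : ℕ) [Fact l.Prime] (hl : l ≠ p) (x : Pic0 k F) : ∃ y : Pic0 k F, l • y = x := by
  refine v27At_divisible_of_card l (2 * genusFF k F) (fun n => Pic0.torsion k F (l ^ n))
    (fun n y => ?_) (fun n => v27A_main p l hl n) x (v27At_isTorsion p x)
  rw [Pic0.mem_torsion, natCast_zsmul]

end Fermat.Agent.V
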